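import Mathlib.Algebra.Group.Pointwise.Finset.Basic
import Mathlib.Algebra.Order.Chebyshev
import Mathlib.Data.Real.Basic
import Mathlib.FieldTheory.Finite.Basic
import Mathlib.Tactic

/-!
# Incidences in a finite plane and Garaev's theorem

A point set `P` and a line set `L` of `F²`, `#F = q`, have at most `#P #L / q + √(q #P #L)`
incidences, so `#(A + A) #(A A) ≥ min (q #A) (#A⁴ / q) / 8`.
-/

set_option autoImplicit false

noncomputable section

open scoped Pointwise

namespace FA.SumProduct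

open Finset

variable {F : Type*} [Field F] [Fintype F] [DecidableEq F]

/-- The points of `P` on the line `y = l.1 x + l.2`. -/
def onLine (P : Finset (F × F)) (l : F × F) : Finset (F × F) :=
  P.filter fun z => z.2 = l.1 * z.1 + l.2

theorem card_lines_through (z : F × F) :
    #((univ : Finset (F × F)).filter fun l => z.2 = l.1 * z.1 + l.2) = Fintype.card F := by
  rw [← card_univ (α := F)]
  refine card_nbij' (fun l => l.1) (fun m => (m, z.2 - m * z.1)) (fun l _ => mem_coe.2 (mem_univ _))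
    ?_ ?_ fun m _ => rfl
  · intro m _
    simp only [mem_coe, mem_filter, mem_univ, true_and]
    ring
  · intro l hl
    simp only [mem_coe, mem_filter, mem_univ, true_and] at hl
    exact Prod.ext rfl (by simp only; linear_combination hl)

theorem sum_card_onLine (P : Finset (F × F)) :
    ∑ l : F × F, #(onLine P l) = Fintype.card F * #P := by
  simp only [onLine, card_filter]
  rw [sum_comm]
  simp only [← card_filter, card_lines_through, sum_const, smul_eq_mul]
  ring

theorem sum_sq_card_onLine_le (P : Finset (F × F)) :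
    ∑ l : F × F, #(onLine P l) ^ 2 ≤ Fintype.card F * #P + #P ^ 2 := by
  have e : ∀ l : F × F, #(onLine P l) ^ 2 =
      #((P ×ˢ P).filter fun w => w.1.2 = l.1 * w.1.1 + l.2 ∧ w.2.2 = l.1 * w.2.1 + l.2) := by
    intro l
    rw [sq, onLine, ← card_product, ← filter_product]
  simp only [e, card_filter]
  rw [sum_comm]
  simp only [← card_filter]
  calc ∑ w ∈ P ×ˢ P, #((univ : Finset (F × F)).filter fun l =>
        w.1.2 = l.1 * w.1.1 + l.2 ∧ w.2.2 = l.1 * w.2.1 + l.2)
      ≤ ∑ w ∈ P ×ˢ P, ((if w.1 = w.2 then Fintype.card F else 0) + 1) := by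
        refine sum_le_sum fun w _ => ?_
        split_ifs with h
        · refine le_trans ?_ (Nat.le_succ _)
          rw [← card_lines_through w.1]
          exact card_le_card fun l hl => mem_filter.2 ⟨mem_univ _, (mem_filter.1 hl).2.1⟩
        · rw [zero_add, card_le_one]
          intro l hl m hm
          simp only [mem_filter, mem_univ, true_and] at hl hm
          have hx : w.1.1 ≠ w.2.1 := fun hx => h (Prod.ext hx (by rw [hl.1, hl.2, hx]))
          have hm' : (l.1 - m.1) * (w.1.1 - w.2.1) = 0 := by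
            linear_combination hm.1 - hm.2 - hl.1 + hl.2
          have h1 : l.1 = m.1 :=
            sub_eq_zero.1 ((mul_eq_zero.1 hm').resolve_right (sub_ne_zero.2 hx))
          exact Prod.ext h1 (by linear_combination hm.1 - hl.1 - w.1.1 * h1)
    _ = _ := by
        rw [sum_add_distrib, sum_const, smul_eq_mul, mul_one, card_product, ← sq, sum_product]
        congr 1
        rw [sum_congr rfl fun z hz => by rw [sum_ite_eq, if_pos hz], sum_const, smul_eq_mul,
          mul_comm]

/-- **The incidence bound.** -/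
theorem sq_incidence_sub_le (P L : Finset (F × F)) :
    (∑ l ∈ L, (#(onLine P l) : ℝ) - #L * (#P / Fintype.card F)) ^ 2 ≤
      Fintype.card F * #P * #L := by
  obtain ⟨q, hq⟩ : ∃ q : ℝ, q = Fintype.card F := ⟨_, rfl⟩
  have hq0 : 0 < q := hq ▸ Nat.cast_pos.2 Fintype.card_pos
  rw [← hq]
  have h1 : ∑ l : F × F, (#(onLine P l) : ℝ) = q * #P := by
    rw [hq]
    exact_mod_cast sum_card_onLine P
  have h2 : ∑ l : F × F, (#(onLine P l) : ℝ) ^ 2 ≤ q * #P + (#P : ℝ) ^ 2 := by
    rw [hq]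
    exact_mod_cast sum_sq_card_onLine_le P
  calc (∑ l ∈ L, (#(onLine P l) : ℝ) - #L * (#P / q)) ^ 2
      = (∑ l ∈ L, ((#(onLine P l) : ℝ) - #P / q)) ^ 2 := by
        rw [sum_sub_distrib, sum_const, nsmul_eq_mul]
    _ ≤ #L * ∑ l ∈ L, ((#(onLine P l) : ℝ) - #P / q) ^ 2 := sq_sum_le_card_mul_sum_sq
    _ ≤ #L * ∑ l : F × F, ((#(onLine P l) : ℝ) - #P / q) ^ 2 :=
        mul_le_mul_of_nonneg_left
          (sum_le_sum_of_subset_of_nonneg (subset_univ _) fun l _ _ => sq_nonneg _)
          (Nat.cast_nonneg _)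
    _ ≤ #L * (q * #P) := by
        refine mul_le_mul_of_nonneg_left ?_ (Nat.cast_nonneg _)
        simp only [sub_sq, sum_add_distrib, sum_sub_distrib, sum_const, card_univ,
          Fintype.card_prod, nsmul_eq_mul, ← mul_sum, ← sum_mul, Nat.cast_mul, ← hq]
        rw [h1]
        have e : q * q * ((#P : ℝ) / q) ^ 2 = (#P : ℝ) ^ 2 := by
          field_simp
        have e' : 2 * (q * #P) * ((#P : ℝ) / q) = 2 * (#P : ℝ) ^ 2 := by
          field_simp
        linarith
    _ = _ := by ring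

/-- **The theorem of Garaev.** -/
theorem garaev_le (A : Finset F) :
    min ((Fintype.card F : ℝ) * #A) ((#A : ℝ) ^ 4 / Fintype.card F) / 8 ≤
      (#(A + A) : ℝ) * #(A * A) := by
  obtain ⟨q, hq⟩ : ∃ q : ℝ, q = Fintype.card F := ⟨_, rfl⟩
  have hq1 : 1 ≤ q := hq ▸ Nat.one_le_cast.2 Fintype.card_pos
  obtain ⟨T, hT⟩ : ∃ T : ℝ, T = (#(A + A) : ℝ) * #(A * A) := ⟨_, rfl⟩
  rw [← hq, ← hT]
  have hT0 : 0 ≤ T := hT ▸ by positivity
  rcases A.eq_empty_or_nonempty with rfl | hne
  · simpa using hT0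
  obtain ⟨n, hn⟩ : ∃ n, n = #A := ⟨_, rfl⟩
  rw [← hn]
  have hn1 : 1 ≤ n := hn ▸ hne.card_pos
  rcases Nat.lt_or_ge n 2 with h1 | h2
  · obtain rfl : n = 1 := by omega
    obtain ⟨a, ha⟩ := hne
    have : 1 ≤ T := by
      rw [hT]
      exact_mod_cast Nat.one_le_iff_ne_zero.2 (mul_ne_zero
        (card_pos.2 ⟨a + a, add_mem_add ha ha⟩).ne' (card_pos.2 ⟨a * a, mul_mem_mul ha ha⟩).ne')
    have : min (q * ((1 : ℕ) : ℝ)) (((1 : ℕ) : ℝ) ^ 4 / q) ≤ 1 := by
      refine (min_le_right _ _).trans ?_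
      rw [Nat.cast_one, one_pow, div_le_one (by linarith)]
      exact hq1
    linarith
  obtain ⟨B, hB⟩ : ∃ B, B = A.filter (· ≠ 0) := ⟨_, rfl⟩
  have hBA : B ⊆ A := hB ▸ filter_subset _ _
  have hcardB : n ≤ 2 * #B := by
    have : #A ≤ #B + 1 := by
      refine (card_le_card (t := insert 0 B) fun a ha => ?_).trans (card_insert_le _ _)
      rcases eq_or_ne a 0 with h | h
      · exact h ▸ mem_insert_self _ _
      · exact mem_insert_of_mem (hB ▸ mem_filter.2 ⟨ha, h⟩)
    omega
  obtain ⟨L, hL⟩ : ∃ L, L = (A ×ˢ B).image fun l => (l.2, -(l.1 * l.2)) := ⟨_, rfl⟩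
  have hLcard : #L = n * #B := by
    rw [hL, card_image_of_injOn, card_product, hn]
    rintro ⟨a, b⟩ hab ⟨a', b'⟩ hab' h
    simp only [mem_coe, mem_product, hB, mem_filter] at hab hab'
    simp only [Prod.mk.injEq, neg_inj] at h
    obtain ⟨rfl, h⟩ := h
    rw [mul_right_cancel₀ hab.2.2 h]
  obtain ⟨P, hP⟩ : ∃ P, P = (A + A) ×ˢ (A * A) := ⟨_, rfl⟩
  have hlow : ∀ l ∈ L, n ≤ #(onLine P l) := by
    intro l hl
    rw [hL, mem_image] at hl
    obtain ⟨⟨a, b⟩, hab, rfl⟩ := hl
    rw [mem_product] at hab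
    refine hn ▸ card_le_card_of_injOn (fun c => (a + c, b * c)) (fun c hc => ?_) ?_
    · simp only [mem_coe, onLine, mem_filter, hP, mem_product]
      exact ⟨⟨add_mem_add hab.1 hc, mul_mem_mul (hBA hab.2) hc⟩, by ring⟩
    · intro c _ d _ h
      exact add_left_cancel (congrArg Prod.fst h)
  have hI : (n : ℝ) * #L ≤ ∑ l ∈ L, (#(onLine P l) : ℝ) := by
    rw [mul_comm, ← nsmul_eq_mul, ← sum_const]
    exact sum_le_sum fun l hl => Nat.cast_le.2 (hlow l hl)
  have hPT : (#P : ℝ) = T := by rw [hT, hP, card_product]; push_cast; ring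
  have hinc := sq_incidence_sub_le P L
  rw [← hq, hPT] at hinc
  have hLpos : (0 : ℝ) < #L := by
    rw [hLcard]
    exact_mod_cast Nat.mul_pos (by omega) (by omega)
  have hn0 : (0 : ℝ) < n := by exact_mod_cast (show 0 < n by omega)
  by_cases hc : q * n / 2 ≤ T
  · refine le_trans ?_ hc
    linarith [min_le_left (q * n) ((n : ℝ) ^ 4 / q), mul_pos (show (0 : ℝ) < q by linarith) hn0]
  · rw [not_le] at hc
    have hTq : T / q ≤ n / 2 := by rw [div_le_iff₀ (by linarith)]; linarith
    have hgap : (n : ℝ) / 2 * #L ≤ ∑ l ∈ L, (#(onLine P l) : ℝ) - #L * (T / q) := by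
      nlinarith [mul_le_mul_of_nonneg_left hTq hLpos.le]
    have hsq := (pow_le_pow_left₀ (by positivity) hgap 2).trans hinc
    have hmain : (n : ℝ) ^ 2 * #L ≤ 4 * q * T := by
      refine le_of_mul_le_mul_right ?_ hLpos
      nlinarith
    have hL2 : (n : ℝ) ^ 2 ≤ 2 * #L := by
      rw [hLcard]
      exact_mod_cast (show n ^ 2 ≤ 2 * (n * #B) by nlinarith)
    have : (n : ℝ) ^ 4 / q ≤ 8 * T := by
      rw [div_le_iff₀ (by linarith)]
      nlinarith [mul_le_mul_of_nonneg_left hL2 (sq_nonneg (n : ℝ))]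
    linarith [min_le_right (q * n) ((n : ℝ) ^ 4 / q)]

end FA.SumProduct
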