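import Fermat.Agent.Root.SummaryErdosKac
import Mathlib.Tactic

/-!
# The multiplication table of Erdős

Almost all `m ≤ N²` have about `log log N` prime divisors, almost all products `a b`, `a, b ≤ N`,
about twice as many; so there are `o (N²)` distinct products.
-/

set_option autoImplicit false

noncomputable section

namespace FA.SumProduct

open Finset Filter
open scoped Topology ArithmeticFunction.omega

/-- The distinct products in the table of size `N`. -/
def multTable (N : ℕ) : Finset ℕ := (Icc 1 N ×ˢ Icc 1 N).image fun z => z.1 * z.2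

theorem omega_add_le {a b : ℕ} (ha : a ≠ 0) (hb : b ≠ 0) :
    (ω a : ℝ) + ω b ≤ ω (a * b) + #(a.primeFactors ∩ b.primeFactors) := by
  rw [ErdosKac.Summary.omega_eq, ErdosKac.Summary.omega_eq, ErdosKac.Summary.omega_eq,
    Nat.primeFactors_mul ha hb]
  exact_mod_cast (card_union_add_card_inter a.primeFactors b.primeFactors).ge

theorem sum_common_le (N : ℕ) :
    ∑ z ∈ Icc 1 N ×ˢ Icc 1 N, (#(z.1.primeFactors ∩ z.2.primeFactors) : ℝ) ≤ (N : ℝ) ^ 2 := by
  calc ∑ z ∈ Icc 1 N ×ˢ Icc 1 N, (#(z.1.primeFactors ∩ z.2.primeFactors) : ℝ)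
      ≤ ∑ z ∈ Icc 1 N ×ˢ Icc 1 N,
          ∑ d ∈ Icc 2 N, (if d ∣ z.1 ∧ d ∣ z.2 then (1 : ℝ) else 0) := by
        refine sum_le_sum fun z hz => ?_
        rw [← sum_filter, sum_const, nsmul_eq_mul, mul_one, Nat.cast_le]
        refine card_le_card fun p hp => ?_
        simp only [mem_inter] at hp
        simp only [mem_product, mem_Icc] at hz
        simp only [mem_filter, mem_Icc]
        have h1 := Nat.dvd_of_mem_primeFactors hp.1
        exact ⟨⟨(Nat.prime_of_mem_primeFactors hp.1).two_le,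
          (Nat.le_of_dvd hz.1.1 h1).trans hz.1.2⟩, h1, Nat.dvd_of_mem_primeFactors hp.2⟩
    _ = ∑ d ∈ Icc 2 N, ((N / d : ℕ) : ℝ) ^ 2 := by
        rw [sum_comm]
        refine sum_congr rfl fun d _ => ?_
        rw [← sum_filter, sum_const, nsmul_eq_mul, mul_one, sq, ← Nat.cast_mul,
          ← Nat.Ioc_filter_dvd_card_eq_div N d, ← card_product]
        congr 2
        ext z
        simp only [mem_filter, mem_product, mem_Icc, mem_Ioc]
        omega
    _ ≤ ∑ d ∈ Icc 2 N, (N : ℝ) ^ 2 * (1 / ((d : ℝ) ^ 2)) := by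
        refine sum_le_sum fun d _ => (pow_le_pow_left₀ (Nat.cast_nonneg _) Nat.cast_div_le 2).trans
          (le_of_eq ?_)
        ring
    _ ≤ _ := by
        rw [← mul_sum]
        refine mul_le_of_le_one_right (sq_nonneg _) ?_
        have key : ∀ m : ℕ, ∑ d ∈ Icc 2 (m + 1), (1 : ℝ) / (d : ℝ) ^ 2 ≤ 1 - 1 / ((m : ℝ) + 1) := by
          intro m
          induction m with
          | zero => simp
          | succ m ih =>
            rw [sum_Icc_succ_top (by omega)]
            push_cast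
            have e : 1 / (((m : ℝ) + 1) + 1) ^ 2 ≤ 1 / ((m : ℝ) + 1) - 1 / ((m : ℝ) + 1 + 1) := by
              rw [div_sub_div _ _ (by positivity) (by positivity),
                div_le_div_iff₀ (by positivity) (by positivity)]
              nlinarith [(Nat.cast_nonneg m : (0 : ℝ) ≤ m)]
            linarith
        refine le_trans (sum_le_sum_of_subset_of_nonneg
          (Icc_subset_Icc le_rfl (Nat.le_succ N)) fun d _ _ => by positivity) ((key N).trans ?_)
        have : (0 : ℝ) ≤ 1 / ((N : ℝ) + 1) := by positivity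
        linarith

/-- **Erdős**: the table has `o (N²)` distinct entries. -/
theorem tendsto_multTable :
    Tendsto (fun N : ℕ => (#(multTable N) : ℝ) / (N : ℝ) ^ 2) atTop (𝓝 0) := by
  obtain ⟨B, hB⟩ : ∃ B : ℕ → Finset ℕ, B = fun N : ℕ => (Icc 1 N).filter fun n : ℕ =>
      (1 / 10 : ℝ) * Real.log (Real.log N) ≤ |(ω n : ℝ) - Real.log (Real.log N)| := ⟨_, rfl⟩
  have hB0 : Tendsto (fun N => (#(B N) : ℝ) / N) atTop (𝓝 0) :=
    hB ▸ ErdosKac.Summary.hardy_ramanujan (by norm_num)
  have hB2 : Tendsto (fun N : ℕ => (#(B (N ^ 2)) : ℝ) / (N : ℝ) ^ 2) atTop (𝓝 0) := by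
    refine (hB0.comp (tendsto_pow_atTop two_ne_zero)).congr fun N => ?_
    simp
  have hLL : Tendsto (fun N : ℕ => Real.log (Real.log (N : ℝ))) atTop atTop :=
    Real.tendsto_log_atTop.comp (Real.tendsto_log_atTop.comp tendsto_natCast_atTop_atTop)
  have hlim : Tendsto (fun N : ℕ => (#(B (N ^ 2)) : ℝ) / (N : ℝ) ^ 2 + 2 * ((#(B N) : ℝ) / N) +
      10 / Real.log (Real.log N)) atTop (𝓝 0) := by
    simpa using (hB2.add (hB0.const_mul 2)).add (tendsto_const_nhds.div_atTop hLL)
  refine squeeze_zero' (Eventually.of_forall fun N => by positivity) ?_ hlim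
  filter_upwards [hLL.eventually_ge_atTop 6, eventually_ge_atTop 2] with N hL hN
  obtain ⟨L, hLdef⟩ : ∃ L, L = Real.log (Real.log (N : ℝ)) := ⟨_, rfl⟩
  rw [← hLdef] at hL ⊢
  have hN0 : (0 : ℝ) < N := by exact_mod_cast (show 0 < N by omega)
  have hlN : 0 < Real.log N := Real.log_pos (by exact_mod_cast hN)
  have hL2 : Real.log (Real.log ((N ^ 2 : ℕ) : ℝ)) = Real.log 2 + L := by
    rw [hLdef]
    push_cast
    rw [Real.log_pow]
    push_cast
    rw [Real.log_mul two_ne_zero hlN.ne']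
  have hlog2 : Real.log 2 ≤ 1 := by
    have := Real.log_le_sub_one_of_pos (show (0 : ℝ) < 2 by norm_num)
    linarith
  obtain ⟨U, hU⟩ : ∃ U, U = (Icc 1 N ×ˢ Icc 1 N).filter fun z : ℕ × ℕ =>
      L / 10 ≤ #(z.1.primeFactors ∩ z.2.primeFactors) := ⟨_, rfl⟩
  have hUle : (#U : ℝ) ≤ 10 / L * (N : ℝ) ^ 2 := by
    have h1 : (#U : ℝ) * (L / 10) ≤ (N : ℝ) ^ 2 := by
      refine le_trans ?_ (sum_common_le N)
      rw [← nsmul_eq_mul, ← sum_const]
      have hmemU : ∀ z ∈ U, L / 10 ≤ (#(z.1.primeFactors ∩ z.2.primeFactors) : ℝ) := fun z hz => by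
        rw [hU, mem_filter] at hz
        exact hz.2
      refine (sum_le_sum hmemU).trans
        (sum_le_sum_of_subset_of_nonneg (hU ▸ filter_subset _ _) fun z _ _ => Nat.cast_nonneg _)
    rw [div_mul_eq_mul_div, le_div_iff₀ (by linarith)]
    linarith
  have hsub : multTable N ⊆ B (N ^ 2) ∪
      ((B N ×ˢ Icc 1 N ∪ Icc 1 N ×ˢ B N ∪ U).image fun z => z.1 * z.2) := by
    intro m hm
    obtain ⟨⟨a, b⟩, hab, rfl⟩ := mem_image.1 hm
    by_contra hnot
    simp only [mem_union, mem_image, not_or, not_exists, not_and] at hnot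
    obtain ⟨hm', himg⟩ := hnot
    simp only [mem_product, mem_Icc] at hab
    have hh := himg (a, b)
    simp only [mem_product, hU, hB, mem_filter, mem_Icc, hab, true_and, and_true, not_true,
      imp_false, not_or, not_le, ← hLdef] at hh
    simp only [hB, mem_filter, mem_Icc, not_and, not_le, hL2] at hm'
    have hmem : 1 ≤ a * b ∧ a * b ≤ N ^ 2 :=
      ⟨Nat.one_le_iff_ne_zero.2 (Nat.mul_ne_zero (by omega) (by omega)),
        (Nat.mul_le_mul hab.1.2 hab.2.2).trans (sq N).ge⟩
    have h3 := (abs_lt.1 (hm' hmem)).2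
    have h4 := omega_add_le (show a ≠ 0 by omega) (show b ≠ 0 by omega)
    obtain ⟨⟨h5, h6⟩, h7⟩ := hh
    linarith [(abs_lt.1 h5).1, (abs_lt.1 h6).1]
  have hcard : (#(multTable N) : ℝ) ≤
      #(B (N ^ 2)) + (2 * #(B N) * N + #U) := by
    refine (Nat.cast_le.2 ((card_le_card hsub).trans ((card_union_le _ _).trans (Nat.add_le_add_left
      (card_image_le.trans ((card_union_le _ _).trans
        (Nat.add_le_add_right (card_union_le _ _) _))) _)))).trans (le_of_eq ?_)
    simp only [card_product, Nat.card_Icc, Nat.add_sub_cancel]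
    push_cast
    ring
  rw [div_le_iff₀ (by positivity), add_mul, add_mul, div_mul_cancel₀ _ (by positivity)]
  have e : 2 * ((#(B N) : ℝ) / N) * (N : ℝ) ^ 2 = 2 * #(B N) * N := by
    field_simp
  linarith

end FA.SumProduct
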