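import Mathlib.Analysis.SpecialFunctions.Pow.Real
import Mathlib.Combinatorics.Additive.Energy
import Mathlib.Tactic

/-!
# Solymosi's sum-product theorem

The points of `A × A` on two rays of neighbouring slopes add up to distinct points of
`(A + A) × (A + A)` in the sector between the rays, so the multiplicative energy of a set of
positive reals is at most `4 (log₂ #A + 1) #(A + A) ^ 2`.
-/

set_option autoImplicit false

noncomputable section

open scoped Pointwise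

namespace FA.SumProduct

open Finset

/-- The abscissae on the ray of slope `l`. -/
def ray (A : Finset ℝ) (l : ℝ) : Finset ℝ := A.filter fun a => l * a ∈ A

theorem mulEnergy_eq_sum_ray (A : Finset ℝ) (hA : ∀ a ∈ A, 0 < a) :
    Finset.mulEnergy A A = ∑ l ∈ A / A, #(ray A l) ^ 2 := by
  rw [Finset.mulEnergy, card_eq_sum_card_fiberwise
    (f := fun x : (ℝ × ℝ) × ℝ × ℝ => x.1.1 / x.1.2) (t := A / A)]
  · refine sum_congr rfl fun l _ => ?_
    rw [sq, ← card_product]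
    refine card_nbij' (fun x => (x.1.2, x.2.1)) (fun y => ((l * y.1, y.1), (y.2, l * y.2)))
      ?_ ?_ ?_ ?_
    · intro x hx
      simp only [mem_coe, mem_filter, mem_product] at hx
      obtain ⟨⟨⟨⟨h1, h2⟩, h3, h4⟩, he⟩, hl⟩ := hx
      simp only [mem_coe, mem_product, ray, mem_filter]
      have h2' := (hA _ h2).ne'
      refine ⟨⟨h2, ?_⟩, h3, ?_⟩
      · rwa [← hl, div_mul_cancel₀ _ h2']
      · rwa [← hl, div_mul_eq_mul_div, he, mul_div_cancel_left₀ _ h2']
    · intro y hy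
      simp only [mem_coe, mem_product, ray, mem_filter] at hy
      simp only [mem_coe, mem_filter, mem_product]
      exact ⟨⟨⟨⟨hy.1.2, hy.1.1⟩, hy.2.1, hy.2.2⟩, by ring⟩,
        mul_div_cancel_right₀ _ (hA _ hy.1.1).ne'⟩
    · intro x hx
      simp only [mem_coe, mem_filter, mem_product] at hx
      obtain ⟨⟨⟨⟨h1, h2⟩, h3, h4⟩, he⟩, hl⟩ := hx
      have h2' := (hA _ h2).ne'
      refine Prod.ext (Prod.ext ?_ rfl) (Prod.ext rfl ?_)
      · simp only
        rw [← hl, div_mul_cancel₀ _ h2']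
      · simp only
        rw [← hl, div_mul_eq_mul_div, he, mul_div_cancel_left₀ _ h2']
    · exact fun _ _ => rfl
  · intro x hx
    simp only [mem_coe, mem_filter, mem_product] at hx
    exact mem_coe.2 (div_mem_div hx.1.1.1 hx.1.1.2)

/-- **The sectors**: `∑_{l ∈ D} #(ray l) ^ 2 ≤ 4 #(A + A) ^ 2` for slopes of one dyadic class. -/
theorem sum_dyadic_le {A : Finset ℝ} (hA : ∀ a ∈ A, 0 < a) {D : Finset ℝ} {j : ℕ}
    (hD : ∀ l ∈ D, 0 < l ∧ 2 ^ j ≤ #(ray A l) ∧ #(ray A l) < 2 ^ (j + 1)) :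
    ∑ l ∈ D, #(ray A l) ^ 2 ≤ 4 * #(A + A) ^ 2 := by
  rcases D.eq_empty_or_nonempty with rfl | hne
  · simp
  have hAne : A.Nonempty := by
    obtain ⟨l, hl⟩ := hne
    obtain ⟨a, ha⟩ := card_pos.1 (lt_of_lt_of_le (Nat.two_pow_pos j) (hD l hl).2.1)
    exact ⟨a, (mem_filter.1 ha).1⟩
  obtain ⟨a₁, ha₁, hmin⟩ : ∃ a ∈ A, ∀ b ∈ A, a ≤ b :=
    ⟨A.min' hAne, A.min'_mem hAne, fun b hb => A.min'_le b hb⟩
  obtain ⟨P, hP⟩ : ∃ P : ℝ → Finset (ℝ × ℝ), P = fun l =>
      if h : (D.filter (l < ·)).Nonempty then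
        (ray A l ×ˢ ray A ((D.filter (l < ·)).min' h)).image
          fun q => (q.1 + q.2, l * q.1 + (D.filter (l < ·)).min' h * q.2)
      else (ray A l ×ˢ ray A l).image fun q => (a₁ + q.1, l * q.2 + l * q.1) := ⟨_, rfl⟩
  -- the sector of `l` lies above `l` and below every later slope
  have hsec : ∀ l ∈ D, ∀ z ∈ P l, 0 < z.1 ∧ l * z.1 ≤ z.2 ∧ ∀ m ∈ D, l < m → z.2 < m * z.1 := by
    intro l hl z hz
    obtain ⟨hl0, -⟩ := hD l hl
    simp only [hP] at hz
    split_ifs at hz with h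
    · obtain ⟨⟨a, b⟩, hab, rfl⟩ := mem_image.1 hz
      simp only [mem_product, ray, mem_filter] at hab
      have ha := hA _ hab.1.1
      have hb := hA _ hab.2.1
      obtain ⟨m₀, hm₀⟩ : ∃ m₀, m₀ = (D.filter (l < ·)).min' h := ⟨_, rfl⟩
      rw [← hm₀]
      have hlm : l < m₀ := hm₀ ▸ (mem_filter.1 ((D.filter (l < ·)).min'_mem h)).2
      simp only
      refine ⟨by linarith, ?_, fun m hm hlm' => ?_⟩
      · nlinarith [mul_lt_mul_of_pos_right hlm hb]
      · have h1 : m₀ ≤ m := hm₀ ▸ min'_le _ _ (mem_filter.2 ⟨hm, hlm'⟩)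
        nlinarith [mul_lt_mul_of_pos_right hlm' ha, mul_le_mul_of_nonneg_right h1 hb.le]
    · obtain ⟨⟨a, b⟩, hab, rfl⟩ := mem_image.1 hz
      simp only [mem_product, ray, mem_filter] at hab
      have ha := hA _ hab.1.1
      have := hA _ ha₁
      refine ⟨by positivity, ?_, fun m hm hlm => absurd ⟨m, mem_filter.2 ⟨hm, hlm⟩⟩ h⟩
      simp only
      nlinarith [mul_le_mul_of_nonneg_left (hmin b hab.2.1) hl0.le]
  have hdisj : (D : Set ℝ).PairwiseDisjoint P := by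
    have key : ∀ l ∈ D, ∀ m ∈ D, l < m → Disjoint (P l) (P m) := fun l hl m hm hlm =>
      disjoint_left.2 fun z hzl hzm =>
        absurd ((hsec l hl z hzl).2.2 m hm hlm) (not_lt.2 (hsec m hm z hzm).2.1)
    intro l hl m hm hne'
    rcases lt_or_gt_of_ne hne' with h | h
    · exact key l hl m hm h
    · exact (key m hm l hl h).symm
  have hcard : ∀ l ∈ D, 4 ^ j ≤ #(P l) := by
    intro l hl
    obtain ⟨hl0, hlow, -⟩ := hD l hl
    simp only [hP]
    split_ifs with h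
    · obtain ⟨m₀, hm₀⟩ : ∃ m₀, m₀ = (D.filter (l < ·)).min' h := ⟨_, rfl⟩
      rw [← hm₀]
      have hmem := (D.filter (l < ·)).min'_mem h
      rw [← hm₀, mem_filter] at hmem
      rw [card_image_of_injective _ ?_, card_product, show (4 : ℕ) = 2 * 2 by rfl, mul_pow]
      · exact Nat.mul_le_mul hlow (hD m₀ hmem.1).2.1
      · rintro ⟨a, b⟩ ⟨a', b'⟩ e
        simp only [Prod.mk.injEq] at e ⊢
        have hb : (m₀ - l) * (b - b') = 0 := by linear_combination e.2 - l * e.1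
        rcases mul_eq_zero.1 hb with hz | hz
        · linarith [hmem.2]
        · exact ⟨by linarith, by linarith⟩
    · rw [card_image_of_injective _ ?_, card_product, show (4 : ℕ) = 2 * 2 by rfl, mul_pow]
      · exact Nat.mul_le_mul hlow hlow
      · rintro ⟨a, b⟩ ⟨a', b'⟩ e
        simp only [Prod.mk.injEq, add_right_inj] at e ⊢
        obtain ⟨rfl, e2⟩ := e
        exact ⟨rfl, mul_left_cancel₀ hl0.ne' (by linarith)⟩
  have hsub : D.biUnion P ⊆ (A + A) ×ˢ (A + A) := by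
    intro z hz
    obtain ⟨l, hl, hz⟩ := mem_biUnion.1 hz
    simp only [hP] at hz
    split_ifs at hz with h <;>
    · obtain ⟨q, hq, rfl⟩ := mem_image.1 hz
      simp only [mem_product, ray, mem_filter] at hq
      first
        | exact mem_product.2 ⟨add_mem_add hq.1.1 hq.2.1, add_mem_add hq.1.2 hq.2.2⟩
        | exact mem_product.2 ⟨add_mem_add ha₁ hq.1.1, add_mem_add hq.2.2 hq.1.2⟩
  have hcount : #D * 4 ^ j ≤ #(A + A) ^ 2 := by
    calc #D * 4 ^ j = ∑ _l ∈ D, 4 ^ j := by rw [sum_const, smul_eq_mul]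
      _ ≤ ∑ l ∈ D, #(P l) := sum_le_sum hcard
      _ = #(D.biUnion P) := (card_biUnion hdisj).symm
      _ ≤ #((A + A) ×ˢ (A + A)) := card_le_card hsub
      _ = _ := by rw [card_product, sq]
  calc ∑ l ∈ D, #(ray A l) ^ 2 ≤ ∑ _l ∈ D, 4 * 4 ^ j := by
        refine sum_le_sum fun l hl => ?_
        calc #(ray A l) ^ 2 ≤ (2 ^ (j + 1)) ^ 2 := Nat.pow_le_pow_left (hD l hl).2.2.le 2
          _ = _ := by rw [← pow_mul, mul_comm, pow_mul, pow_succ]; ring
    _ = 4 * (#D * 4 ^ j) := by rw [sum_const, smul_eq_mul]; ring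
    _ ≤ _ := Nat.mul_le_mul_left 4 hcount

/-- **Solymosi's inequality.** -/
theorem solymosi_pow_le {A : Finset ℝ} (hA : ∀ a ∈ A, 0 < a) :
    #A ^ 4 ≤ 4 * (Nat.log 2 #A + 1) * (#(A + A) ^ 2 * #(A * A)) := by
  rcases A.eq_empty_or_nonempty with rfl | hne
  · simp
  obtain ⟨D, hD⟩ : ∃ D : ℕ → Finset ℝ, D = fun j =>
      (A / A).filter fun l => Nat.log 2 #(ray A l) = j ∧ (ray A l).Nonempty := ⟨_, rfl⟩
  have hpos : ∀ l ∈ A / A, 0 < l := fun l hl => by
    obtain ⟨a, ha, b, hb, rfl⟩ := mem_div.1 hl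
    exact div_pos (hA a ha) (hA b hb)
  have hE : Finset.mulEnergy A A ≤ 4 * (Nat.log 2 #A + 1) * #(A + A) ^ 2 := by
    rw [mulEnergy_eq_sum_ray A hA, ← sum_filter_of_ne (p := fun l => (ray A l).Nonempty)
      fun l _ h => card_pos.1 (Nat.pos_of_ne_zero fun h0 => h (by rw [h0]; rfl)),
      ← sum_fiberwise_of_maps_to (g := fun l => Nat.log 2 #(ray A l))
        (t := range (Nat.log 2 #A + 1))
        fun l _ => mem_range.2 (Nat.lt_succ_of_le
          (Nat.log_mono_right (card_le_card (filter_subset _ _))))]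
    refine (sum_le_sum (g := fun _ => 4 * #(A + A) ^ 2) fun j _ => ?_).trans (le_of_eq ?_)
    · refine sum_dyadic_le hA (j := j) fun l hl => ?_
      simp only [mem_filter] at hl
      obtain ⟨⟨hl1, hl2⟩, hl3⟩ := hl
      exact ⟨hpos l hl1, hl3 ▸ Nat.pow_log_le_self 2 hl2.card_pos.ne',
        hl3 ▸ Nat.lt_pow_succ_log_self one_lt_two _⟩
    · rw [sum_const, card_range, smul_eq_mul]
      ring
  have h := le_card_mul_mul_mulEnergy A A
  calc #A ^ 4 = #A ^ 2 * #A ^ 2 := by ring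
    _ ≤ #(A * A) * Finset.mulEnergy A A := h
    _ ≤ #(A * A) * (4 * (Nat.log 2 #A + 1) * #(A + A) ^ 2) := Nat.mul_le_mul_left _ hE
    _ = _ := by ring

/-- **The theorem of Solymosi**, for all finite sets of reals. -/
theorem exists_solymosi :
    ∃ c : ℝ, 0 < c ∧ ∀ A : Finset ℝ,
      c * ((#A : ℝ) ^ (4 / 3 : ℝ) / Real.log (#A + 1) ^ (1 / 3 : ℝ)) ≤
        max #(A + A) #(A * A) := by
  refine ⟨(Real.log 2 / 2048) ^ (1 / 3 : ℝ), by positivity, fun A => ?_⟩
  obtain ⟨n, hn⟩ : ∃ n, n = #A := ⟨_, rfl⟩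
  obtain ⟨M, hM⟩ : ∃ M : ℕ, M = max #(A + A) #(A * A) := ⟨_, rfl⟩
  rw [← hn, ← hM]
  rcases Nat.eq_zero_or_pos n with h0 | h0
  · rw [h0]; simp
  have hL : 0 < Real.log ((n : ℝ) + 1) :=
    Real.log_pos (by linarith [show (1 : ℝ) ≤ n by exact_mod_cast h0])
  have hM1 : 1 ≤ M := by
    obtain ⟨a, ha⟩ := card_pos.1 (hn ▸ h0)
    exact hM ▸ le_max_of_le_left (card_pos.2 ⟨a + a, add_mem_add ha ha⟩)
  suffices key : Real.log 2 * (n : ℝ) ^ 4 ≤ 2048 * Real.log ((n : ℝ) + 1) * (M : ℝ) ^ 3 by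
    have h := Real.rpow_le_rpow (by positivity)
      (show Real.log 2 / 2048 * ((n : ℝ) ^ 4 / Real.log ((n : ℝ) + 1)) ≤ (M : ℝ) ^ 3 by
        rw [div_mul_div_comm, div_le_iff₀ (by positivity)]
        linarith) (show (0 : ℝ) ≤ 1 / 3 by norm_num)
    rw [Real.mul_rpow (by positivity) (by positivity), Real.div_rpow (by positivity) hL.le,
      ← Real.rpow_natCast (n : ℝ) 4, ← Real.rpow_mul (by positivity), ← Real.rpow_natCast (M : ℝ) 3,
      ← Real.rpow_mul (by positivity)] at h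
    norm_num at h ⊢
    exact h
  have hlog2 := Real.log_pos one_lt_two
  rcases Nat.lt_or_ge n 2 with h2 | h2
  · obtain rfl : n = 1 := by omega
    have : (1 : ℝ) ≤ (M : ℝ) ^ 3 := one_le_pow₀ (by exact_mod_cast hM1)
    norm_num
    nlinarith
  classical
  obtain ⟨B₁, hB₁⟩ : ∃ B₁, B₁ = A.filter (0 < ·) := ⟨_, rfl⟩
  obtain ⟨B₂, hB₂⟩ : ∃ B₂, B₂ = (A.filter (· < 0)).image (fun a => -a) := ⟨_, rfl⟩
  have hcover : n ≤ #B₁ + #B₂ + 1 := by
    rw [hB₂, card_image_of_injective _ neg_injective, hB₁, hn]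
    refine le_trans (card_le_card (t := A.filter (0 < ·) ∪ A.filter (· < 0) ∪ {0})
      fun a ha => ?_) ?_
    · simp only [mem_union, mem_filter, mem_singleton]
      rcases lt_trichotomy a 0 with h | h | h <;> simp [ha, h]
    · exact (card_union_le _ _).trans (Nat.add_le_add (card_union_le _ _) (card_singleton _).le)
  have hB : ∀ B : Finset ℝ, (∀ b ∈ B, 0 < b) → #(B + B) ≤ M → #(B * B) ≤ M → n ≤ 4 * #B →
      #B ≤ n → Real.log 2 * (n : ℝ) ^ 4 ≤ 2048 * Real.log ((n : ℝ) + 1) * (M : ℝ) ^ 3 := by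
    intro B hpos hs hp hbig hsmall
    have h := (solymosi_pow_le hpos).trans (Nat.mul_le_mul
      (Nat.mul_le_mul_left 4 (Nat.add_le_add_right (Nat.log_mono_right hsmall) 1))
      (Nat.mul_le_mul (Nat.pow_le_pow_left hs 2) hp))
    have h4 : n ^ 4 ≤ 1024 * ((Nat.log 2 n + 1) * M ^ 3) := by
      calc n ^ 4 ≤ (4 * #B) ^ 4 := Nat.pow_le_pow_left hbig 4
        _ = 256 * #B ^ 4 := by ring
        _ ≤ 256 * (4 * (Nat.log 2 n + 1) * (M ^ 2 * M)) := Nat.mul_le_mul_left _ h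
        _ = _ := by ring
    have hl : ((Nat.log 2 n : ℕ) + 1 : ℝ) * Real.log 2 ≤ 2 * Real.log ((n : ℝ) + 1) := by
      have h1 : (Nat.log 2 n : ℝ) * Real.log 2 ≤ Real.log ((n : ℝ) + 1) := by
        rw [← Real.log_pow]
        refine Real.log_le_log (by positivity) ?_
        have : ((2 : ℕ) : ℝ) ^ Nat.log 2 n ≤ (n : ℝ) := by
          exact_mod_cast Nat.pow_log_le_self 2 (show n ≠ 0 by omega)
        push_cast at this
        linarith
      have h2 : Real.log 2 ≤ Real.log ((n : ℝ) + 1) :=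
        Real.log_le_log two_pos (by linarith [show (1 : ℝ) ≤ n by exact_mod_cast h0])
      linarith
    have h4' : (n : ℝ) ^ 4 ≤ 1024 * (((Nat.log 2 n : ℕ) + 1 : ℝ) * (M : ℝ) ^ 3) := by
      exact_mod_cast h4
    have := mul_le_mul_of_nonneg_left h4' hlog2.le
    nlinarith [mul_le_mul_of_nonneg_right hl (show (0 : ℝ) ≤ (M : ℝ) ^ 3 by positivity)]
  rcases Nat.lt_or_ge (4 * #B₁) n with h | h
  · refine hB B₂ (fun b hb => ?_) ?_ ?_ (by omega) ?_
    · rw [hB₂, mem_image] at hb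
      obtain ⟨a, ha, rfl⟩ := hb
      exact neg_pos.2 (mem_filter.1 ha).2
    · refine le_trans ?_ (hM ▸ le_max_left _ _)
      refine le_trans (card_le_card (t := (A + A).image fun a => -a) fun z hz => ?_) card_image_le
      obtain ⟨x, hx, y, hy, rfl⟩ := mem_add.1 hz
      rw [hB₂, mem_image] at hx hy
      obtain ⟨a, ha, rfl⟩ := hx
      obtain ⟨b, hb, rfl⟩ := hy
      exact mem_image.2 ⟨a + b, add_mem_add (mem_filter.1 ha).1 (mem_filter.1 hb).1, by ring⟩
    · refine le_trans (card_le_card fun z hz => ?_) (hM ▸ le_max_right _ _)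
      obtain ⟨x, hx, y, hy, rfl⟩ := mem_mul.1 hz
      rw [hB₂, mem_image] at hx hy
      obtain ⟨a, ha, rfl⟩ := hx
      obtain ⟨b, hb, rfl⟩ := hy
      rw [neg_mul_neg]
      exact mul_mem_mul (mem_filter.1 ha).1 (mem_filter.1 hb).1
    · rw [hB₂, hn]
      exact card_image_le.trans (card_le_card (filter_subset _ _))
  · refine hB B₁ (fun b hb => (mem_filter.1 (hB₁ ▸ hb)).2) ?_ ?_ h ?_
    · exact (card_le_card (add_subset_add (hB₁ ▸ filter_subset _ _)
        (hB₁ ▸ filter_subset _ _))).trans (hM ▸ le_max_left _ _)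
    · exact (card_le_card (mul_subset_mul (hB₁ ▸ filter_subset _ _)
        (hB₁ ▸ filter_subset _ _))).trans (hM ▸ le_max_right _ _)
    · exact hn ▸ hB₁ ▸ card_le_card (filter_subset _ _)

end FA.SumProduct
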